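/-
P-CFT row 798 SD-EFF (helper79), part 1: the BASE CASE of effacement.

For a normal subgroup `N` acting trivially on `M` with `χ|N = 1`, a vector `m : M` and the
orbit morphism `effPi m : k[G/N] ⟶ M`, `e_(xN) ↦ x m`, every cocycle `z` of level `N` with
values in `M^*(χ)` and of positive degree becomes a coboundary in `k[G/N]^*(χ)`:
`(effPi m)^* ∘ z = d w`, with the explicit primitive
`w(g₁, …, gₙ)(e_(yN)) = χ(y) · z(y⁻¹, g₁, …, gₙ)(m)`, again of level `N`.
-/
import Fermat.Agent.H86.CftSmall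
import Fermat.Agent.H19.Cft.HomologyApi

set_option autoImplicit false

universe u

open CategoryTheory CategoryTheory.Limits groupCohomology

namespace Fermat.Agent.H79.Cft

open Fermat.Agent.H13.Cft Fermat.Agent.H53 Fermat.Agent.H19

/-! ### `Fin.contractNth` and `Fin.cons` -/

section FinLemmas

variable {α : Type*} {n : ℕ}

theorem eff_contractNth_zero_cons (op : α → α → α) (x : α) (g : Fin (n + 1) → α) :
    Fin.contractNth 0 op (Fin.cons x g : Fin (n + 2) → α)
      = Fin.cons (op x (g 0)) (Fin.tail g) := by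
  funext i
  refine Fin.cases ?_ (fun i => ?_) i
  · simp [Fin.contractNth]
  · simp [Fin.contractNth, Fin.tail]

theorem eff_contractNth_succ_cons (op : α → α → α) (x : α) (j : Fin (n + 1))
    (g : Fin (n + 1) → α) :
    Fin.contractNth j.succ op (Fin.cons x g : Fin (n + 2) → α)
      = Fin.cons x (Fin.contractNth j op g) := by
  funext i
  refine Fin.cases ?_ (fun i => ?_) i
  · simp [Fin.contractNth]
  · simp only [Fin.contractNth, Fin.cons_succ, Fin.val_succ, add_lt_add_iff_right,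
      add_left_inj]
    have h1 : (i.succ.castSucc : Fin (n + 2)) = (i.castSucc).succ := rfl
    rw [h1, Fin.cons_succ]

theorem eff_cons_mul_cons {G : Type*} [Mul G] (x s : G) (g u : Fin n → G) :
    (Fin.cons (x * s) (g * u) : Fin (n + 1) → G) = Fin.cons x g * Fin.cons s u := by
  funext i
  refine Fin.cases ?_ (fun i => ?_) i
  · simp
  · simp

end FinLemmas

section Base

variable {k G : Type u} [CommRing k] [Group G] (χ : G →* kˣ) (M : Rep.{u} k G) (N : Subgroup G)

/-! ### The orbit morphism `k[G/N] ⟶ M` -/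

/-- The orbit map `G ⧸ N → M`, `xN ↦ x m` (on representatives). -/
noncomputable def effOrbit (m : M) (q : G ⧸ N) : M := M.ρ q.out m

variable {M N}

lemma effOrbit_mk (hM : ∀ s ∈ N, M.ρ s = 1) (m : M) (y : G) :
    effOrbit M N m (y : G ⧸ N) = M.ρ y m := by
  obtain ⟨s, hs⟩ := QuotientGroup.mk_out_eq_mul N y
  unfold effOrbit
  rw [hs, map_mul, hM s.1 s.2]
  rfl

variable (M N)

/-- The underlying linear map of the orbit morphism. -/
noncomputable def effPiLin (m : M) : MonoidAlgebra k (G ⧸ N) →ₗ[k] M :=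
  (Finsupp.linearCombination k (effOrbit M N m)) ∘ₗ (MonoidAlgebra.coeffLinearEquiv k).toLinearMap

lemma effPiLin_single (m : M) (q : G ⧸ N) (r : k) :
    effPiLin M N m (MonoidAlgebra.single q r) = r • effOrbit M N m q := by
  simp [effPiLin]

variable {M N}

lemma effPiLin_comm (hM : ∀ s ∈ N, M.ρ s = 1) (m : M) (g : G) :
    effPiLin M N m ∘ₗ Representation.ofMulAction k G (G ⧸ N) g = M.ρ g ∘ₗ effPiLin M N m := by
  refine MonoidAlgebra.lhom_ext' fun q => LinearMap.ext fun r => ?_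
  obtain ⟨y, rfl⟩ := QuotientGroup.mk_surjective q
  simp only [LinearMap.comp_apply, MonoidAlgebra.lsingle_apply,
    Representation.ofMulAction_single, effPiLin_single, map_smul]
  congr 1
  show effOrbit M N m ((g * y : G) : G ⧸ N) = _
  rw [effOrbit_mk hM, effOrbit_mk hM, map_mul]
  rfl

/-- The orbit morphism `k[G/N] ⟶ M`, `e_(xN) ↦ x m`. -/
noncomputable def effPi (hM : ∀ s ∈ N, M.ρ s = 1) (m : M) :
    Rep.ofMulAction k G (G ⧸ N) ⟶ M :=
  Rep.ofHom (σ := M.ρ) ⟨effPiLin M N m, effPiLin_comm hM m⟩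

lemma effPi_hom_single (hM : ∀ s ∈ N, M.ρ s = 1) (m : M) (y : G) (r : k) :
    (effPi hM m).hom (MonoidAlgebra.single (y : G ⧸ N) r) = r • M.ρ y m := by
  show effPiLin M N m (MonoidAlgebra.single (y : G ⧸ N) r) = _
  rw [effPiLin_single, effOrbit_mk hM]

/-! ### Evaluation of the differential of a twisted dual -/

/-- Evaluation at a vector, as a linear map on the twisted dual. -/
noncomputable def effEval (A : Rep.{u} k G) (a : A) : (A.dualTwist χ : Type u) →ₗ[k] k :=
  (LinearMap.applyₗ a : Module.Dual k A →ₗ[k] k)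

lemma effEval_apply (A : Rep.{u} k G) (a : A) (ξ : Module.Dual k A) :
    effEval χ A a ξ = ξ a := rfl

theorem eff_d_eval (A : Rep.{u} k G) {n : ℕ} (f : (Fin n → G) → A.dualTwist χ)
    (g : Fin (n + 1) → G) (a : A) :
    effEval χ A a ((inhomogeneousCochains.d (A.dualTwist χ) n).hom f g)
      = (χ (g 0) : k) * effEval χ A (A.ρ (g 0)⁻¹ a) (f (fun i => g i.succ))
        + ∑ j : Fin (n + 1), (-1 : k) ^ ((j : ℕ) + 1) *
            effEval χ A a (f (Fin.contractNth j (· * ·) g)) := by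
  rw [inhomogeneousCochains.d_hom_apply, map_add, map_sum]
  simp only [map_smul, smul_eq_mul]
  rfl

/-! ### The primitive -/

variable (M N)

/-- The values of the primitive on representatives:
`(g, q) ↦ χ(y) · z(y⁻¹, g)(m)` for `y = q.out`. -/
noncomputable def effWFun {n : ℕ} (z : (Fin (n + 1) → G) → M.dualTwist χ) (m : M)
    (g : Fin n → G) (q : G ⧸ N) : k :=
  (χ q.out : k) * effEval χ M m (z (Fin.cons q.out⁻¹ g))

/-- The primitive `w(g)(e_(yN)) = χ(y) · z(y⁻¹, g)(m)`. -/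
noncomputable def effW {n : ℕ} (z : (Fin (n + 1) → G) → M.dualTwist χ) (m : M) :
    (Fin n → G) → (Rep.ofMulAction k G (G ⧸ N)).dualTwist χ :=
  fun g => ((Finsupp.linearCombination k (effWFun χ M N z m g)) ∘ₗ
    (MonoidAlgebra.coeffLinearEquiv k).toLinearMap : Module.Dual k (MonoidAlgebra k (G ⧸ N)))

variable {M N}

lemma effWFun_mk (hN : N.Normal) (hχ : ∀ s ∈ N, χ s = 1) {n : ℕ}
    {z : (Fin (n + 1) → G) → M.dualTwist χ} (hz : IsLevelAt N (M.dualTwist χ) z) (m : M)
    (g : Fin n → G) (y : G) :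
    effWFun χ M N z m g (y : G ⧸ N) = (χ y : k) * effEval χ M m (z (Fin.cons y⁻¹ g)) := by
  obtain ⟨s, hs⟩ := QuotientGroup.mk_out_eq_mul N y
  unfold effWFun
  rw [hs, map_mul, hχ s.1 s.2, mul_one]
  congr 2
  have h1 : (y * (s : G))⁻¹ = y⁻¹ * (y * (s : G)⁻¹ * y⁻¹) := by group
  have h2 : y * (s : G)⁻¹ * y⁻¹ ∈ N := hN.conj_mem _ (N.inv_mem s.2) y
  have h3 : (Fin.cons (y⁻¹ * (y * (s : G)⁻¹ * y⁻¹)) g : Fin (n + 1) → G)
      = Fin.cons y⁻¹ g * Fin.cons (y * (s : G)⁻¹ * y⁻¹) 1 := by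
    rw [← eff_cons_mul_cons, mul_one]
  rw [h1, h3]
  refine hz.1 _ _ fun i => ?_
  refine Fin.cases ?_ (fun i => ?_) i
  · simpa using h2
  · simp

lemma effW_single (hN : N.Normal) (hχ : ∀ s ∈ N, χ s = 1) {n : ℕ}
    {z : (Fin (n + 1) → G) → M.dualTwist χ} (hz : IsLevelAt N (M.dualTwist χ) z) (m : M)
    (g : Fin n → G) (y : G) (r : k) :
    effEval χ (Rep.ofMulAction k G (G ⧸ N)) (MonoidAlgebra.single (y : G ⧸ N) r)
        (effW χ M N z m g)
      = r * ((χ y : k) * effEval χ M m (z (Fin.cons y⁻¹ g))) := by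
  rw [← effWFun_mk χ hN hχ hz]
  show (Finsupp.linearCombination k (effWFun χ M N z m g))
    ((MonoidAlgebra.coeffLinearEquiv k) (MonoidAlgebra.single (y : G ⧸ N) r)) = _
  simp

/-! ### Triviality of `N` on the permutation module and its twisted dual -/

lemma effPerm_trivial (hN : N.Normal) (s : G) (hs : s ∈ N) :
    (Rep.ofMulAction k G (G ⧸ N)).ρ s = 1 := by
  refine MonoidAlgebra.lhom_ext' fun q => LinearMap.ext fun r => ?_
  obtain ⟨y, rfl⟩ := QuotientGroup.mk_surjective q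
  show Representation.ofMulAction k G (G ⧸ N) s (MonoidAlgebra.single (y : G ⧸ N) r)
    = MonoidAlgebra.single (y : G ⧸ N) r
  rw [Representation.ofMulAction_single]
  congr 1
  show ((s * y : G) : G ⧸ N) = (y : G ⧸ N)
  rw [QuotientGroup.eq]
  have h1 : (s * y)⁻¹ * y = y⁻¹ * s⁻¹ * y⁻¹⁻¹ := by group
  rw [h1]
  exact hN.conj_mem _ (N.inv_mem hs) _

lemma eff_dualTwist_trivial (A : Rep.{u} k G) (hA : ∀ s ∈ N, A.ρ s = 1)
    (hχ : ∀ s ∈ N, χ s = 1) (s : G) (hs : s ∈ N) : (A.dualTwist χ).ρ s = 1 := by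
  refine LinearMap.ext fun f => ?_
  rw [Rep.dualTwist_ρ_apply, hχ s hs, hA _ (N.inv_mem hs), Units.val_one, one_smul]
  rfl

/-! ### The primitive has level `N` -/

theorem effW_isLevelAt (hN : N.Normal) (hχ : ∀ s ∈ N, χ s = 1) {n : ℕ}
    {z : (Fin (n + 1) → G) → M.dualTwist χ} (hz : IsLevelAt N (M.dualTwist χ) z) (m : M) :
    IsLevelAt N ((Rep.ofMulAction k G (G ⧸ N)).dualTwist χ) (effW χ M N z m) := by
  refine ⟨fun g u hu => ?_, fun g s hs => ?_⟩
  · refine MonoidAlgebra.lhom_ext' fun q => LinearMap.ext fun r => ?_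
    obtain ⟨y, rfl⟩ := QuotientGroup.mk_surjective q
    show effEval χ (Rep.ofMulAction k G (G ⧸ N)) (MonoidAlgebra.single (y : G ⧸ N) r)
        (effW χ M N z m (g * u))
      = effEval χ (Rep.ofMulAction k G (G ⧸ N)) (MonoidAlgebra.single (y : G ⧸ N) r)
        (effW χ M N z m g)
    rw [effW_single χ hN hχ hz, effW_single χ hN hχ hz]
    congr 3
    have h3 : (Fin.cons y⁻¹ (g * u) : Fin (n + 1) → G) = Fin.cons y⁻¹ g * Fin.cons 1 u := by
      rw [← eff_cons_mul_cons, mul_one]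
    rw [h3]
    refine hz.1 _ _ fun i => ?_
    refine Fin.cases ?_ (fun i => ?_) i
    · simp
    · simpa using hu i
  · rw [eff_dualTwist_trivial χ _ (effPerm_trivial hN) hχ s hs]
    rfl

/-! ### The primitive kills the image of a cocycle of level `N` -/

theorem eff_d_effW (hN : N.Normal) (hχ : ∀ s ∈ N, χ s = 1) (hM : ∀ s ∈ N, M.ρ s = 1) {n : ℕ}
    {z : (Fin (n + 1) → G) → M.dualTwist χ} (hz : IsLevelAt N (M.dualTwist χ) z)
    (hcoc : (inhomogeneousCochains.d (M.dualTwist χ) (n + 1)).hom z = 0) (m : M) :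
    (inhomogeneousCochains.d ((Rep.ofMulAction k G (G ⧸ N)).dualTwist χ) n).hom (effW χ M N z m)
      = fun g => (dualTwistMap χ (effPi hM m)).hom (z g) := by
  funext g
  refine MonoidAlgebra.lhom_ext' fun q => LinearMap.ext fun r => ?_
  obtain ⟨y, rfl⟩ := QuotientGroup.mk_surjective q
  show effEval χ (Rep.ofMulAction k G (G ⧸ N)) (MonoidAlgebra.single (y : G ⧸ N) r)
      ((inhomogeneousCochains.d ((Rep.ofMulAction k G (G ⧸ N)).dualTwist χ) n).hom
        (effW χ M N z m) g)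
    = effEval χ M ((effPi hM m).hom (MonoidAlgebra.single (y : G ⧸ N) r)) (z g)
  rw [eff_d_eval, effPi_hom_single]
  -- the action on the basis vector
  have hact : (Rep.ofMulAction k G (G ⧸ N)).ρ (g 0)⁻¹ (MonoidAlgebra.single (y : G ⧸ N) r)
      = MonoidAlgebra.single (((g 0)⁻¹ * y : G) : G ⧸ N) r :=
    Representation.ofMulAction_single _ _ _
  rw [hact, effW_single χ hN hχ hz]
  simp only [effW_single χ hN hχ hz]
  -- the cocycle condition at `(y⁻¹, g)`, evaluated at `m`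
  have h0 : effEval χ M m ((inhomogeneousCochains.d (M.dualTwist χ) (n + 1)).hom z
      (Fin.cons y⁻¹ g)) = 0 := by
    rw [hcoc]
    rfl
  rw [eff_d_eval, Fin.sum_univ_succ] at h0
  simp only [Fin.cons_succ, Fin.cons_zero, Fin.val_zero, zero_add, pow_one, Fin.val_succ,
    eff_contractNth_zero_cons, eff_contractNth_succ_cons, inv_inv] at h0
  have h2 : ∀ j : Fin (n + 1),
      (-1 : k) ^ ((j : ℕ) + 1 + 1) * effEval χ M m (z (Fin.cons y⁻¹ (Fin.contractNth j (· * ·) g)))
        = -((-1 : k) ^ ((j : ℕ) + 1) *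
            effEval χ M m (z (Fin.cons y⁻¹ (Fin.contractNth j (· * ·) g)))) := by
    intro j
    rw [pow_succ, mul_neg_one, neg_mul]
  simp only [h2, Finset.sum_neg_distrib] at h0
  have h3 : ∀ j : Fin (n + 1),
      (-1 : k) ^ ((j : ℕ) + 1) *
          (r * ((χ y : k) * effEval χ M m (z (Fin.cons y⁻¹ (Fin.contractNth j (· * ·) g)))))
        = (r * (χ y : k)) * ((-1 : k) ^ ((j : ℕ) + 1) *
            effEval χ M m (z (Fin.cons y⁻¹ (Fin.contractNth j (· * ·) g)))) := by
    intro j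
    ring
  simp only [h3]
  rw [← Finset.mul_sum]
  have h4 : (Fin.tail g) = fun i => g i.succ := rfl
  rw [h4] at h0
  have h5 : ((g 0)⁻¹ * y)⁻¹ = y⁻¹ * g 0 := by group
  rw [h5]
  have h6 : (χ (g 0) : k) * (χ ((g 0)⁻¹ * y) : k) = (χ y : k) := by
    rw [← Units.val_mul, ← map_mul, mul_inv_cancel_left]
  have h7 : (χ y : k) * (χ y⁻¹ : k) = 1 := by
    rw [← Units.val_mul, ← map_mul, mul_inv_cancel, map_one, Units.val_one]
  have h8 : effEval χ M (r • M.ρ y m) (z g) = r * effEval χ M (M.ρ y m) (z g) := by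
    show (z g : Module.Dual k M) (r • M.ρ y m) = r * (z g : Module.Dual k M) (M.ρ y m)
    rw [map_smul, smul_eq_mul]
  rw [h8]
  linear_combination
    (r * effEval χ M m (z (Fin.cons (y⁻¹ * g 0) fun i => g i.succ))) * h6
      - (r * (χ y : k)) * h0 + (r * effEval χ M (M.ρ y m) (z g)) * h7

end Base

end Fermat.Agent.H79.Cft
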