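/-
P-CFT row 798 SD-EFF (helper79), part 2: EFFACEMENT.

`efface : Fermat.Agent.H13.Cft.EffaceStatement`.

For a good module `M` (finite over `k`, trivialised by a level) and `n ≥ 1` with
`Hⁿ(𝒰, M^*(χ))` finite, pick a level `N` which trivialises `M` and `χ` and at which every class
of `Hⁿ(𝒰, M^*(χ))` is represented.  For a finite spanning set `m₁, …, m_d` of `M` the sum
`I = k[G/N] ⊞ … ⊞ k[G/N]` with the orbit morphisms `e_(xN) ↦ x mᵢ` is an effacement: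
every class dies in `Hⁿ(𝒰, I^*(χ))` (componentwise by the explicit primitive of part 1).
-/
import Fermat.Agent.H79.Cft.EffBase

set_option autoImplicit false

universe u

open CategoryTheory CategoryTheory.Limits groupCohomology

namespace Fermat.Agent.H79.Cft

open Fermat.Agent.H13.Cft Fermat.Agent.H53 Fermat.Agent.H19

section Classes

variable {k G : Type u} [CommRing k] [Group G] (𝒰 : LevelSys G) (A : Rep.{u} k G) (n : ℕ)

/-- The class `c` is represented by a cocycle of level `N`. -/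
def EffClassAt (N : Subgroup G) (c : lvlH 𝒰 A n) : Prop :=
  ∃ (x : lvlCochains 𝒰 A n) (hx : lvlD 𝒰 A n x = 0),
    IsLevelAt N A x.1 ∧ lvlHMk 𝒰 A n x hx = c

variable {𝒰 A n}

lemma EffClassAt.mono {N N' : Subgroup G} (h : N' ≤ N) {c : lvlH 𝒰 A n}
    (hc : EffClassAt 𝒰 A n N c) : EffClassAt 𝒰 A n N' c := by
  obtain ⟨x, hx, hl, rfl⟩ := hc
  exact ⟨x, hx, hl.mono h, rfl⟩

lemma EffClassAt.zero (N : Subgroup G) : EffClassAt 𝒰 A n N 0 :=
  ⟨0, map_zero _, isLevelAt_zero N A n, lvlHMk_zero 𝒰 A n _⟩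

lemma EffClassAt.add {N : Subgroup G} {c c' : lvlH 𝒰 A n}
    (hc : EffClassAt 𝒰 A n N c) (hc' : EffClassAt 𝒰 A n N c') :
    EffClassAt 𝒰 A n N (c + c') := by
  obtain ⟨x, hx, hl, rfl⟩ := hc
  obtain ⟨x', hx', hl', rfl⟩ := hc'
  have hxx : lvlD 𝒰 A n (x + x') = 0 := by rw [map_add, hx, hx', add_zero]
  exact ⟨x + x', hxx, hl.add hl', lvlHMk_add 𝒰 A n x x' hx hx' hxx⟩

lemma EffClassAt.smul {N : Subgroup G} (r : k) {c : lvlH 𝒰 A n}
    (hc : EffClassAt 𝒰 A n N c) : EffClassAt 𝒰 A n N (r • c) := by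
  obtain ⟨x, hx, hl, rfl⟩ := hc
  have hrx : lvlD 𝒰 A n (r • x) = 0 := by rw [map_smul, hx, smul_zero]
  exact ⟨r • x, hrx, hl.smul r, lvlHMk_smul 𝒰 A n r x hx hrx⟩

lemma effClassAt_exists (c : lvlH 𝒰 A n) : ∃ N ∈ 𝒰.sets, EffClassAt 𝒰 A n N c := by
  obtain ⟨x, hx, rfl⟩ := lvlHMk_surjective 𝒰 A n c
  obtain ⟨N, hN, hl⟩ := x.2
  exact ⟨N, hN, x, hx, hl, rfl⟩

/-- Finitely many classes are represented at a common level, below a given one. -/
lemma effClassAt_finset (N₀ : Subgroup G) (hN₀ : N₀ ∈ 𝒰.sets) (S : Finset (lvlH 𝒰 A n)) :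
    ∃ N ∈ 𝒰.sets, N ≤ N₀ ∧ ∀ c ∈ S, EffClassAt 𝒰 A n N c := by
  classical
  induction S using Finset.induction_on with
  | empty => exact ⟨N₀, hN₀, le_rfl, fun c hc => absurd hc (Finset.notMem_empty c)⟩
  | insert a S _ ih =>
    obtain ⟨N, hN, hle, hS⟩ := ih
    obtain ⟨N', hN', ha⟩ := effClassAt_exists (𝒰 := 𝒰) a
    obtain ⟨N'', hN'', hle''⟩ := 𝒰.directed N hN N' hN'
    refine ⟨N'', hN'', (hle''.trans inf_le_left).trans hle, fun c hc => ?_⟩
    rcases Finset.mem_insert.1 hc with rfl | hc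
    · exact ha.mono (hle''.trans inf_le_right)
    · exact (hS c hc).mono (hle''.trans inf_le_left)

/-- If the cohomology is finite, all classes are represented at a common level. -/
lemma effClassAt_of_finite (hfin : Module.Finite k (lvlH 𝒰 A n)) (N₀ : Subgroup G)
    (hN₀ : N₀ ∈ 𝒰.sets) :
    ∃ N ∈ 𝒰.sets, N ≤ N₀ ∧ ∀ c : lvlH 𝒰 A n, EffClassAt 𝒰 A n N c := by
  obtain ⟨S, hS⟩ := hfin.fg_top
  obtain ⟨N, hN, hle, hall⟩ := effClassAt_finset (𝒰 := 𝒰) N₀ hN₀ S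
  refine ⟨N, hN, hle, fun c => ?_⟩
  have hc : c ∈ Submodule.span k (S : Set (lvlH 𝒰 A n)) := by rw [hS]; exact Submodule.mem_top
  induction hc using Submodule.span_induction with
  | mem x hx => exact hall x hx
  | zero => exact EffClassAt.zero N
  | add x y _ _ hx hy => exact hx.add hy
  | smul r x _ hx => exact hx.smul r

end Classes

section Good

variable {k G : Type u} [CommRing k] [Group G] (𝒰 : LevelSys G) (χ : G →* kˣ)
  (M : Rep.{u} k G) (n : ℕ) (N : Subgroup G)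

/-- `π : I ⟶ M` effaces all classes of level `N` (and `I` is a finite sum of copies of
`k[G/N]`, finite over `k`, with trivial action of `N`). -/
def EffGood (I : Rep.{u} k G) (π : I ⟶ M) : Prop :=
  Module.Finite k I ∧ (∀ s ∈ N, I.ρ s = 1) ∧
    IsFiniteSumOf (Rep.ofMulAction k G (G ⧸ N)) I ∧
    ∀ c : lvlH 𝒰 (M.dualTwist χ) n, EffClassAt 𝒰 (M.dualTwist χ) n N c →
      (HomologicalComplex.homologyMap (lvlMap 𝒰 (dualTwistMap χ π)) n).hom c = 0

variable {𝒰 χ M n N}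

/-- Every vector of a biproduct is a sum of vectors from the two summands. -/
lemma eff_biprod_decomp (A B : Rep.{u} k G) (x : (A ⊞ B : Rep.{u} k G)) :
    x = (biprod.inl : A ⟶ A ⊞ B).hom ((biprod.fst : A ⊞ B ⟶ A).hom x)
      + (biprod.inr : B ⟶ A ⊞ B).hom ((biprod.snd : A ⊞ B ⟶ B).hom x) := by
  have h := congrArg (fun φ : (A ⊞ B) ⟶ (A ⊞ B) => φ.hom x) (biprod.total (X := A) (Y := B))
  exact h.symm

lemma eff_biprod_finite (A B : Rep.{u} k G) (hA : Module.Finite k A) (hB : Module.Finite k B) :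
    Module.Finite k (A ⊞ B : Rep.{u} k G) := by
  let L : (A × B) →ₗ[k] (A ⊞ B : Rep.{u} k G) :=
    LinearMap.coprod (biprod.inl : A ⟶ A ⊞ B).hom.toLinearMap
      (biprod.inr : B ⟶ A ⊞ B).hom.toLinearMap
  have hL : Function.Surjective L := fun x =>
    ⟨((biprod.fst : A ⊞ B ⟶ A).hom x, (biprod.snd : A ⊞ B ⟶ B).hom x),
      (eff_biprod_decomp A B x).symm⟩
  exact Module.Finite.of_surjective L hL

lemma eff_biprod_trivial (A B : Rep.{u} k G) (hA : ∀ s ∈ N, A.ρ s = 1)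
    (hB : ∀ s ∈ N, B.ρ s = 1) (s : G) (hs : s ∈ N) : (A ⊞ B : Rep.{u} k G).ρ s = 1 := by
  refine LinearMap.ext fun x => ?_
  have hx := eff_biprod_decomp A B x
  have h1 : (A ⊞ B : Rep.{u} k G).ρ s
      ((biprod.inl : A ⟶ A ⊞ B).hom ((biprod.fst : A ⊞ B ⟶ A).hom x))
      = (biprod.inl : A ⟶ A ⊞ B).hom ((biprod.fst : A ⊞ B ⟶ A).hom x) := by
    rw [← Rep.hom_comm_apply, hA s hs]
    rfl
  have h2 : (A ⊞ B : Rep.{u} k G).ρ s
      ((biprod.inr : B ⟶ A ⊞ B).hom ((biprod.snd : A ⊞ B ⟶ B).hom x))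
      = (biprod.inr : B ⟶ A ⊞ B).hom ((biprod.snd : A ⊞ B ⟶ B).hom x) := by
    rw [← Rep.hom_comm_apply, hB s hs]
    rfl
  conv_lhs => rw [hx]
  rw [map_add, h1, h2]
  exact hx.symm

/-- Effacing pairs are closed under biproducts. -/
theorem EffGood.biprod {A B : Rep.{u} k G} {πA : A ⟶ M} {πB : B ⟶ M}
    (hA : EffGood 𝒰 χ M n N A πA) (hB : EffGood 𝒰 χ M n N B πB) :
    EffGood 𝒰 χ M n N (A ⊞ B) (biprod.desc πA πB) := by
  obtain ⟨hA1, hA2, hA3, hA4⟩ := hA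
  obtain ⟨hB1, hB2, hB3, hB4⟩ := hB
  refine ⟨eff_biprod_finite A B hA1 hB1, eff_biprod_trivial A B hA2 hB2, hA3.biprod hB3,
    fun c hc => ?_⟩
  have h1 : biprod.desc πA πB = biprod.fst ≫ πA + biprod.snd ≫ πB := biprod.desc_eq
  rw [h1, Fermat.Agent.H86.CftSmall.dualTwistMap_add', dualTwistMap_comp, dualTwistMap_comp,
    Fermat.Agent.H86.CftSmall.lvlMap_add', lvlMap_comp, lvlMap_comp,
    HomologicalComplex.homologyMap_add, HomologicalComplex.homologyMap_comp,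
    HomologicalComplex.homologyMap_comp]
  show (HomologicalComplex.homologyMap (lvlMap 𝒰 (dualTwistMap χ biprod.fst)) n).hom
      ((HomologicalComplex.homologyMap (lvlMap 𝒰 (dualTwistMap χ πA)) n).hom c)
    + (HomologicalComplex.homologyMap (lvlMap 𝒰 (dualTwistMap χ biprod.snd)) n).hom
      ((HomologicalComplex.homologyMap (lvlMap 𝒰 (dualTwistMap χ πB)) n).hom c) = 0
  rw [hA4 c hc, hB4 c hc, map_zero, map_zero, add_zero]

/-- The orbit morphism of a vector effaces the classes of level `N` in positive degree. -/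
theorem effGood_base [Finite (G ⧸ N)] (hN : N ∈ 𝒰.sets) (hχ : ∀ s ∈ N, χ s = 1)
    (hM : ∀ s ∈ N, M.ρ s = 1) (n : ℕ) (m : M) :
    EffGood 𝒰 χ M (n + 1) N (Rep.ofMulAction k G (G ⧸ N)) (effPi hM m) := by
  have hNn : N.Normal := 𝒰.normal N hN
  refine ⟨inferInstanceAs (Module.Finite k (MonoidAlgebra k (G ⧸ N))), effPerm_trivial hNn,
    IsFiniteSumOf.self _, fun c hc => ?_⟩
  obtain ⟨x, hx, hl, rfl⟩ := hc
  rw [lvlHMk_lvlMap, lvlHMk_succ_eq_zero_iff]
  have hcoc : (inhomogeneousCochains.d (M.dualTwist χ) (n + 1)).hom x.1 = 0 := by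
    have := congrArg Subtype.val hx
    rwa [lvlD_coe] at this
  refine ⟨⟨effW χ M N x.1 m, N, hN, effW_isLevelAt χ hNn hχ hl m⟩, Subtype.ext ?_⟩
  rw [lvlD_coe]
  exact eff_d_effW χ hNn hχ hM hl hcoc m

/-- For every finite set of vectors there is an effacing pair whose range contains it. -/
theorem effGood_finset [Finite (G ⧸ N)] (hN : N ∈ 𝒰.sets) (hχ : ∀ s ∈ N, χ s = 1)
    (hM : ∀ s ∈ N, M.ρ s = 1) (n : ℕ) (S : Finset M) :
    ∃ (I : Rep.{u} k G) (π : I ⟶ M), EffGood 𝒰 χ M (n + 1) N I π ∧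
      ∀ m ∈ S, ∃ a : I, π.hom a = m := by
  classical
  induction S using Finset.induction_on with
  | empty =>
    exact ⟨_, effPi hM 0, effGood_base hN hχ hM n 0,
      fun m hm => absurd hm (Finset.notMem_empty m)⟩
  | insert m S _ ih =>
    obtain ⟨I, π, hI, hS⟩ := ih
    refine ⟨I ⊞ Rep.ofMulAction k G (G ⧸ N), biprod.desc π (effPi hM m),
      hI.biprod (effGood_base hN hχ hM n m), fun m' hm' => ?_⟩
    rcases Finset.mem_insert.1 hm' with rfl | hm'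
    · refine ⟨(biprod.inr : Rep.ofMulAction k G (G ⧸ N) ⟶ I ⊞ Rep.ofMulAction k G (G ⧸ N)).hom
        (MonoidAlgebra.single ((1 : G) : G ⧸ N) (1 : k)), ?_⟩
      have h1 := congrArg (fun φ : Rep.ofMulAction k G (G ⧸ N) ⟶ M =>
        φ.hom (MonoidAlgebra.single ((1 : G) : G ⧸ N) (1 : k)))
        (biprod.inr_desc π (effPi hM m'))
      refine h1.trans ?_
      show (effPi hM m').hom (MonoidAlgebra.single ((1 : G) : G ⧸ N) (1 : k)) = m'
      rw [effPi_hom_single, one_smul, map_one]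
      rfl
    · obtain ⟨a, ha⟩ := hS m' hm'
      refine ⟨(biprod.inl : I ⟶ I ⊞ Rep.ofMulAction k G (G ⧸ N)).hom a, ?_⟩
      have h1 := congrArg (fun φ : I ⟶ M => φ.hom a) (biprod.inl_desc π (effPi hM m))
      exact h1.trans ha

end Good

/-- **[EFF]** Effacement. -/
theorem efface : EffaceStatement.{u} := by
  intro k G _ _ 𝒰 χ hχ M hMfin hMtriv n hn hfin
  obtain ⟨N₀, hN₀, hχ₀⟩ := hχ
  obtain ⟨N₁, hN₁, hM₁⟩ := hMtriv
  obtain ⟨N₂, hN₂, hle₂⟩ := 𝒰.directed N₀ hN₀ N₁ hN₁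
  obtain ⟨N, hN, hle, hall⟩ := effClassAt_of_finite (𝒰 := 𝒰) hfin N₂ hN₂
  have hχN : ∀ s ∈ N, χ s = 1 := fun s hs => hχ₀ s ((hle.trans hle₂).trans inf_le_left hs)
  have hMN : ∀ s ∈ N, M.ρ s = 1 := fun s hs => hM₁ s ((hle.trans hle₂).trans inf_le_right hs)
  have hNfi : N.FiniteIndex := 𝒰.finiteIndex N hN
  have hfinite : Finite (G ⧸ N) := Subgroup.finite_quotient_of_finiteIndex
  obtain ⟨n, rfl⟩ : ∃ n' : ℕ, n = n' + 1 := ⟨n - 1, by omega⟩
  obtain ⟨S, hS⟩ := hMfin.fg_top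
  obtain ⟨I, π, ⟨hI1, hI2, hI3, hI4⟩, hrange⟩ := effGood_finset (𝒰 := 𝒰) hN hχN hMN n S
  refine ⟨N, hN, hχN, I, π, ?_, hI1, ⟨N, hN, hI2⟩, hI3, ?_⟩
  · rw [Rep.epi_iff_surjective]
    intro m
    have hm : m ∈ Submodule.span k (S : Set M) := by rw [hS]; exact Submodule.mem_top
    have hle' : Submodule.span k (S : Set M) ≤ LinearMap.range π.hom.toLinearMap := by
      rw [Submodule.span_le]
      intro m' hm'
      obtain ⟨a, ha⟩ := hrange m' hm'
      exact ⟨a, ha⟩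
    obtain ⟨a, ha⟩ := hle' hm
    exact ⟨a, ha⟩
  · refine ModuleCat.hom_ext (LinearMap.ext fun c => ?_)
    exact hI4 c (hall c)

end Fermat.Agent.H79.Cft
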